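import Fermat.Agent.GT.EMB.Middle

/-!
# GT-EMB, file 4: change of level (`t ↦ t^m`), compatibility with `w_Q`
-/

set_option autoImplicit false

open ModularCurve

namespace Fermat.Agent.GT.EMB

open Fermat.Agent.GR

theorem FF_mono (K : Type*) [Field K] {N N' : ℕ} (h : N ∣ N') : FF K N ≤ FF K N' := by
  unfold FF modularFunctionFieldFullC
  apply IntermediateField.adjoin.mono
  rintro x ⟨d, hne, hd, rfl⟩
  exact ⟨d, hne, hd.trans h, rfl⟩

theorem qExpand_jd (K : Type*) [Field K] (m : ℕ) [NeZero m] (d : ℕ) :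
    qExpand K m (jd K d) = jd K (m * d) := by
  rcases Nat.eq_zero_or_pos d with rfl | hd
  · have h0 : jd K 0 = 0 := dif_pos rfl
    rw [mul_zero, h0, map_zero]
  · have : NeZero d := ⟨hd.ne'⟩
    rw [jd_eq, jd_eq, qExpand_qExpand]

/-- `t ↦ t^m` maps level `N` to level `m N`. -/
theorem qExpand_mem_FF {K : Type*} [Field K] (m : ℕ) [NeZero m] {N : ℕ} {u : LaurentSeries K}
    (hu : u ∈ FF K N) : qExpand K m u ∈ FF K (m * N) := by
  induction hu using IntermediateField.adjoin_induction with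
  | mem x hx =>
      obtain ⟨d, hd, hdN, rfl⟩ := hx
      rw [qExpand_qExpand]
      exact jqModCd_mem_full K (m * N) (Nat.mul_dvd_mul_left m hdN)
  | algebraMap a =>
      have h := (qExpandAlgHomC K m).commutes a
      rw [qExpandAlgHomC_apply] at h
      rw [h]
      exact (FF K (m * N)).algebraMap_mem a
  | add x y _ _ hx hy => rw [map_add]; exact add_mem hx hy
  | inv x _ hx => rw [map_inv₀]; exact inv_mem hx
  | mul x y _ _ hx hy => rw [map_mul]; exact mul_mem hx hy

theorem Level_qExpand_algebraMap {K : Type*} [Field K] (m : ℕ) [NeZero m] (c : K) :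
    qExpand K m (algebraMap K (LaurentSeries K) c) = algebraMap K (LaurentSeries K) c :=
  (qExpandAlgHomC K m).commutes c

/-- the ring homomorphism `f ↦ f(t^m)` from level `N` to any level `N'` divisible by `m N`. -/
noncomputable def Level_expHom (K : Type*) [Field K] (m : ℕ) [NeZero m] (N N' : ℕ)
    (h : m * N ∣ N') : FF K N →+* FF K N' where
  toFun f := ⟨qExpand K m (f : LaurentSeries K), FF_mono K h (qExpand_mem_FF m f.2)⟩
  map_one' := Subtype.ext (map_one (qExpand K m))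
  map_mul' _ _ := Subtype.ext (map_mul (qExpand K m) _ _)
  map_zero' := Subtype.ext (map_zero (qExpand K m))
  map_add' _ _ := Subtype.ext (map_add (qExpand K m) _ _)

theorem Level_expHom_algebraMap (K : Type*) [Field K] (m : ℕ) [NeZero m] (N N' : ℕ)
    (h : m * N ∣ N') (c : K) :
    Level_expHom K m N N' h (algebraMap K (FF K N) c) = algebraMap K (FF K N') c :=
  Subtype.ext (Level_qExpand_algebraMap m c)

theorem Level_expHom_gen (K : Type*) [Field K] (m : ℕ) [NeZero m] (N N' : ℕ) [NeZero N]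
    [NeZero N'] (h : m * N ∣ N') (d : ℕ) (hd : d ∣ N) :
    Level_expHom K m N N' h (gen K N d hd) =
      gen K N' (m * d) ((Nat.mul_dvd_mul_left m hd).trans h) :=
  Subtype.ext (qExpand_jd K m d)

/-- on the functions of level `N1`, `w_Q` is `t ↦ t^Q`. -/
theorem wQ_of_mem {K : Type} [Field K] (ι : K →+* ℂ) (Q N1 : ℕ) [NeZero Q] [NeZero (Q * N1)]
    (hcop : Q.Coprime N1) (u : FF K (Q * N1)) (hu : (u : LaurentSeries K) ∈ FF K N1) :
    (wQ K Q N1 u : LaurentSeries K) = qExpand K Q u := by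
  have hN1 : NeZero N1 := ⟨fun h => NeZero.ne (Q * N1) (by rw [h, mul_zero])⟩
  have hle : FF K N1 ≤ FF K (Q * N1) := FF_mono K (Dvd.intro_left Q rfl)
  let φ₁ : FF K N1 →+* LaurentSeries K :=
    ((FF K (Q * N1)).val.toRingHom.comp (wQ K Q N1).toAlgHom.toRingHom).comp
      (IntermediateField.inclusion hle).toRingHom
  let φ₂ : FF K N1 →+* LaurentSeries K := (qExpand K Q).comp (FF K N1).val.toRingHom
  have h : φ₁ = φ₂ := by
    apply ringHom_ext_gen N1
    · intro c
      change ((wQ K Q N1 (algebraMap K (FF K (Q * N1)) c) : FF K (Q * N1)) : LaurentSeries K) =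
        qExpand K Q (algebraMap K (LaurentSeries K) c)
      rw [AlgEquiv.commutes, Level_qExpand_algebraMap]
      rfl
    · intro d hd
      change ((wQ K Q N1 (gen K (Q * N1) d (hd.trans (Dvd.intro_left Q rfl))) : FF K (Q * N1)) :
        LaurentSeries K) = qExpand K Q (jd K d)
      rw [wQ_gen ι Q N1 hcop, qExpand_jd]
      have := alIdx_mul hcop (one_dvd Q) hd
      rw [one_mul, Nat.div_one] at this
      rw [this]
  exact DFunLike.congr_fun h ⟨u, hu⟩

/-- `w_{q²} (f(t^q)) = w_q f` for `f` of level `q M0`. -/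
theorem wQ_sq_qExpand {K : Type} [Field K] (ι : K →+* ℂ) {q M0 : ℕ} [NeZero q] [NeZero (q * M0)]
    [NeZero (q ^ 2 * M0)] (hq : q.Prime) (hqM : ¬ q ∣ M0) (f : FF K (q * M0))
    (h : qExpand K q (f : LaurentSeries K) ∈ FF K (q ^ 2 * M0)) :
    (wQ K (q ^ 2) M0 ⟨qExpand K q (f : LaurentSeries K), h⟩ : LaurentSeries K) = wQ K q M0 f := by
  have hcop : q.Coprime M0 := (Nat.Prime.coprime_iff_not_dvd hq).2 hqM
  have hcop2 : (q ^ 2).Coprime M0 := Nat.Coprime.pow_left 2 hcop
  have hdvd : q * (q * M0) ∣ q ^ 2 * M0 := by rw [pow_two, mul_assoc]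
  let φ₁ : FF K (q * M0) →+* LaurentSeries K :=
    ((FF K (q ^ 2 * M0)).val.toRingHom.comp (wQ K (q ^ 2) M0).toAlgHom.toRingHom).comp
      (Level_expHom K q (q * M0) (q ^ 2 * M0) hdvd)
  let φ₂ : FF K (q * M0) →+* LaurentSeries K :=
    (FF K (q * M0)).val.toRingHom.comp (wQ K q M0).toAlgHom.toRingHom
  have h12 : φ₁ = φ₂ := by
    apply ringHom_ext_gen (q * M0)
    · intro c
      change ((wQ K (q ^ 2) M0 (Level_expHom K q (q * M0) (q ^ 2 * M0) hdvd
        (algebraMap K (FF K (q * M0)) c)) : FF K (q ^ 2 * M0)) : LaurentSeries K) =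
        ((wQ K q M0 (algebraMap K (FF K (q * M0)) c) : FF K (q * M0)) : LaurentSeries K)
      rw [Level_expHom_algebraMap, AlgEquiv.commutes, AlgEquiv.commutes]
      rfl
    · intro d hd
      change ((wQ K (q ^ 2) M0 (Level_expHom K q (q * M0) (q ^ 2 * M0) hdvd
        (gen K (q * M0) d hd)) : FF K (q ^ 2 * M0)) : LaurentSeries K) =
        ((wQ K q M0 (gen K (q * M0) d hd) : FF K (q * M0)) : LaurentSeries K)
      rw [Level_expHom_gen, wQ_gen ι (q ^ 2) M0 hcop2, wQ_gen ι q M0 hcop]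
      obtain ⟨a, b, ha, hb, rfl⟩ := ALIdx_exists_mul hd
      rw [alIdx_mul hcop ha hb, ← mul_assoc,
        alIdx_mul hcop2 (by rw [pow_two]; exact Nat.mul_dvd_mul_left q ha) hb, pow_two,
        Nat.mul_div_mul_left _ _ hq.pos]
  exact DFunLike.congr_fun h12 f

theorem Level_scaleHom_qExpand {K : Type*} [Field K] (q : ℕ) [NeZero q] (ζ : Kˣ) (hζ : ζ ^ q = 1)
    (g : LaurentSeries K) : scaleHom ζ (qExpand K q g) = qExpand K q g := by
  ext n
  rw [scaleHom_coeff]
  by_cases hn : (q : ℤ) ∣ n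
  · obtain ⟨k, rfl⟩ := hn
    rw [zpow_mul, zpow_natCast, hζ, one_zpow, Units.val_one, one_mul]
  · rw [qExpand_coeff_of_not_dvd q g hn, mul_zero]

theorem Level_scaleHom_algebraMap {K : Type*} [Field K] (ζ : Kˣ) (c : K) :
    scaleHom ζ (algebraMap K (LaurentSeries K) c) = algebraMap K (LaurentSeries K) c := by
  have h : algebraMap K (LaurentSeries K) c = HahnSeries.C c := by
    rw [algebraMap_laurentSeries_eq_single]
    rfl
  rw [h, scaleHom_C]

/-- `iotaMid ζ (f(t^q)) = (w_q f)(ζ t)` for `f` of level `q M0`. -/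
theorem iotaMid_qExpand {K : Type} [Field K] (ι : K →+* ℂ) {q M0 : ℕ} [NeZero q] [NeZero (q * M0)]
    [NeZero (q ^ 2 * M0)] (hq : q.Prime) (hqM : ¬ q ∣ M0) (ζ : Kˣ) (hζ : IsPrimitiveRoot ζ q)
    (f : FF K (q * M0)) (h : qExpand K q (f : LaurentSeries K) ∈ FF K (q ^ 2 * M0)) :
    iotaMid K q M0 ζ ⟨qExpand K q (f : LaurentSeries K), h⟩ =
      scaleHom ζ (wQ K q M0 f : LaurentSeries K) := by
  have hcop : q.Coprime M0 := (Nat.Prime.coprime_iff_not_dvd hq).2 hqM
  have hdvd : q * (q * M0) ∣ q ^ 2 * M0 := by rw [pow_two, mul_assoc]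
  let φ₁ : FF K (q * M0) →+* LaurentSeries K :=
    (iotaMid K q M0 ζ).toRingHom.comp (Level_expHom K q (q * M0) (q ^ 2 * M0) hdvd)
  let φ₂ : FF K (q * M0) →+* LaurentSeries K :=
    (scaleHom ζ).comp ((FF K (q * M0)).val.toRingHom.comp (wQ K q M0).toAlgHom.toRingHom)
  have h12 : φ₁ = φ₂ := by
    apply ringHom_ext_gen (q * M0)
    · intro c
      change iotaMid K q M0 ζ (Level_expHom K q (q * M0) (q ^ 2 * M0) hdvd
        (algebraMap K (FF K (q * M0)) c)) =
        scaleHom ζ ((wQ K q M0 (algebraMap K (FF K (q * M0)) c) : FF K (q * M0)) :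
          LaurentSeries K)
      rw [Level_expHom_algebraMap, AlgHom.commutes, AlgEquiv.commutes]
      exact (Level_scaleHom_algebraMap ζ c).symm
    · intro d hd
      change iotaMid K q M0 ζ (Level_expHom K q (q * M0) (q ^ 2 * M0) hdvd
        (gen K (q * M0) d hd)) =
        scaleHom ζ ((wQ K q M0 (gen K (q * M0) d hd) : FF K (q * M0)) : LaurentSeries K)
      rw [Level_expHom_gen, iotaMid_gen ι hq hqM ζ hζ, wQ_gen ι q M0 hcop]
      obtain ⟨a, b, ha, hb, rfl⟩ := ALIdx_exists_mul hd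
      rw [alIdx_mul hcop ha hb]
      rcases (Nat.dvd_prime hq).1 ha with rfl | rfl
      · -- `a = 1`
        have hnd : ¬ q ^ 2 ∣ q * (1 * b) := by
          rw [one_mul, pow_two]
          intro hcon
          exact hqM ((Nat.dvd_of_mul_dvd_mul_left hq.pos hcon).trans hb)
        rw [midImg, if_neg hnd, one_mul, Nat.div_one, ← qExpand_jd,
          Level_scaleHom_qExpand q ζ hζ.pow_eq_one]
      · -- `a = q`
        have hd2 : a ^ 2 ∣ a * (a * b) := by rw [pow_two, ← mul_assoc]; exact Dvd.intro _ rfl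
        rw [midImg, if_pos hd2, Nat.div_self hq.pos, one_mul, ← mul_assoc, ← pow_two,
          Nat.mul_div_cancel_left _ (pow_pos hq.pos 2)]
  exact DFunLike.congr_fun h12 f

end Fermat.Agent.GT.EMB
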