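import Fermat.Agent.GT.EMB.ALIdx
import Fermat.Agent.S24.JFun
import Fermat.Agent.S24.Conj

/-!
# GT-EMB, file 2b: the Atkin-Lehner matrix acting on `τ ↦ j(d τ)` (analytic input)
-/

set_option autoImplicit false

open UpperHalfPlane

namespace Fermat.Agent.GT.EMB

open scoped MatrixGroups

theorem ALMap_mulPos_surjective (Q : ℕ) [NeZero Q] : Function.Surjective (S24.mulPos Q) := by
  intro τ
  have hQ : (0 : ℝ) < Q := by exact_mod_cast Nat.pos_of_ne_zero (NeZero.ne Q)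
  have hQC : (Q : ℂ) ≠ 0 := by exact_mod_cast NeZero.ne Q
  refine ⟨⟨(τ : ℂ) / Q, ?_⟩, ?_⟩
  · have h1 : ((τ : ℂ) / Q).im = τ.im / Q := by
      simp [Complex.div_natCast_im]
    rw [h1]
    exact div_pos τ.im_pos hQ
  · apply UpperHalfPlane.ext
    rw [S24.coe_mulPos]
    show (Q : ℂ) * ((τ : ℂ) / Q) = τ
    field_simp

/-- ANALYTIC INPUT: the Atkin-Lehner matrix `W = [[Q x, y], [Q N1 z, Q w]]`, `det W = Q`. -/
theorem exists_atkinLehner_map {Q N1 : ℕ} (hQ : Q ≠ 0) (hN1 : N1 ≠ 0) (hcop : Q.Coprime N1) :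
    ∃ g : ℍ → ℍ, Function.Surjective g ∧
      ∀ (d : ℕ) (_ : NeZero d) (_ : NeZero (alIdx Q d)), d ∣ Q * N1 →
        ∀ τ, S24.jdfun d (g τ) = S24.jdfun (alIdx Q d) τ := by
  haveI : NeZero Q := ⟨hQ⟩
  obtain ⟨x, v, hxv⟩ := Nat.isCoprime_iff_coprime.2 hcop
  have hdet0 : (!![x, -v; (N1 : ℤ), (Q : ℤ)] : Matrix (Fin 2) (Fin 2) ℤ).det = 1 := by
    rw [Matrix.det_fin_two_of]
    linear_combination hxv
  let γ₀ : SL(2, ℤ) := ⟨!![x, -v; (N1 : ℤ), (Q : ℤ)], hdet0⟩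
  refine ⟨fun τ => γ₀ • S24.mulPos Q τ, ?_, ?_⟩
  · exact (MulAction.surjective γ₀).comp (ALMap_mulPos_surjective Q)
  · intro d _ _ hd τ
    obtain ⟨d0, Q', hc, hd0, hQ'⟩ := Nat.exists_coprime d Q
    set g0 := Nat.gcd d Q with hg0
    have hg0pos : 0 < g0 := Nat.gcd_pos_of_pos_right _ (Nat.pos_of_ne_zero hQ)
    have hd0N1 : d0 ∣ N1 := by
      have h1 : d0 * g0 ∣ Q' * N1 * g0 := by
        have : Q' * N1 * g0 = Q * N1 := by
          conv_rhs => rw [hQ']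
          ring
        rw [this, ← hd0]
        exact hd
      exact hc.dvd_of_dvd_mul_left (Nat.dvd_of_mul_dvd_mul_right hg0pos h1)
    obtain ⟨n1, hn1⟩ := hd0N1
    have hal : alIdx Q d = Q' * d0 := by
      unfold alIdx
      rw [← hg0]
      have e1 : Q / g0 = Q' := by
        conv_lhs => rw [hQ']
        exact Nat.mul_div_cancel _ hg0pos
      have e2 : d / g0 = d0 := by
        conv_lhs => rw [hd0]
        exact Nat.mul_div_cancel _ hg0pos
      rw [e1, e2]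
    have hQz : (Q : ℤ) = Q' * g0 := by exact_mod_cast hQ'
    have hdz : (d : ℤ) = d0 * g0 := by exact_mod_cast hd0
    have hNz : (N1 : ℤ) = d0 * n1 := by exact_mod_cast hn1
    have hdet1 : (!![(g0 : ℤ) * x, (d0 : ℤ) * (-v); (n1 : ℤ), (Q' : ℤ)] :
        Matrix (Fin 2) (Fin 2) ℤ).det = 1 := by
      rw [Matrix.det_fin_two_of]
      rw [hQz, hNz] at hxv
      linear_combination hxv
    let δ : SL(2, ℤ) := ⟨!![(g0 : ℤ) * x, (d0 : ℤ) * (-v); (n1 : ℤ), (Q' : ℤ)], hdet1⟩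
    have key : S24.mulPos d (γ₀ • S24.mulPos Q τ) = δ • S24.mulPos (alIdx Q d) τ := by
      refine S24.Conj.mulPos_smul_eq d γ₀ δ d0 g0 0 hg0pos ?_ ?_ ?_ ?_ (S24.mulPos Q τ)
        (S24.mulPos (alIdx Q d) τ) ?_
      · show (d : ℤ) * x = (g0 : ℤ) * x * d0
        rw [hdz]; ring
      · show (d : ℤ) * (-v) = (g0 : ℤ) * x * 0 + (d0 : ℤ) * (-v) * g0
        rw [hdz]; ring
      · show (N1 : ℤ) = (n1 : ℤ) * d0
        rw [hNz]; ring
      · show (Q : ℤ) = (n1 : ℤ) * 0 + (Q' : ℤ) * g0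
        rw [hQz]; ring
      · rw [S24.coe_mulPos, S24.coe_mulPos]
        have hgC : (g0 : ℂ) ≠ 0 := by exact_mod_cast hg0pos.ne'
        have hQC : (Q : ℂ) = Q' * g0 := by exact_mod_cast hQ'
        have halC : ((alIdx Q d : ℕ) : ℂ) = Q' * d0 := by exact_mod_cast hal
        rw [halC, hQC]
        field_simp
        simp
    rw [S24.jdfun, key, S24.jfun_smul, S24.jdfun]

end Fermat.Agent.GT.EMB
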