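import Fermat.Agent.GT.EMB.General
import Fermat.Agent.GT.EMB.ALMap

/-!
# GT-EMB, file 2c: the Atkin-Lehner involution `w_Q` of `FF K (Q * N1)`, `gcd(Q, N1) = 1`

`w_Q (j(t^d)) = j(t^{d'})`, `d' = alIdx Q d = (Q / gcd(d,Q)) * (d / gcd(d,Q))`.
-/

set_option autoImplicit false

open UpperHalfPlane ModularCurve

namespace Fermat.Agent.GT.EMB

open Fermat.Agent.GR
open Fermat.Agent.S28 (IsExp)

theorem AtkinLehner_alIdx_ne_zero {Q N1 : ℕ} [NeZero (Q * N1)] (hcop : Q.Coprime N1) {d : ℕ}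
    (hd : d ∣ Q * N1) : alIdx Q d ≠ 0 := by
  intro h0
  have h := alIdx_dvd hcop hd
  rw [h0] at h
  exact NeZero.ne (Q * N1) (Nat.eq_zero_of_zero_dvd h)

theorem exists_wEmb {K : Type} [Field K] (ι : K →+* ℂ) (Q N1 : ℕ) [NeZero (Q * N1)]
    (hcop : Q.Coprime N1) :
    ∃ φ : FF K (Q * N1) →ₐ[K] LaurentSeries K,
      ∀ d hd, φ (gen K (Q * N1) d hd) = jd K (alIdx Q d) := by
  have hQN : Q * N1 ≠ 0 := NeZero.ne _
  have hQ : Q ≠ 0 := left_ne_zero_of_mul hQN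
  have hN1 : N1 ≠ 0 := right_ne_zero_of_mul hQN
  obtain ⟨g, hg, hgj⟩ := exists_atkinLehner_map hQ hN1 hcop
  refine exists_emb ι (Q * N1) g hg (fun d => jd K (alIdx Q d)) ?_
  intro d hd0 hd
  have hne : NeZero (alIdx Q d) := ⟨AtkinLehner_alIdx_ne_zero hcop hd⟩
  rw [coeffMap_jd, jd_eq]
  exact (B.isExp_jdfun (alIdx Q d)).congr (fun τ => (hgj d hd0 hne hd τ).symm)

theorem exists_wQ {K : Type} [Field K] (ι : K →+* ℂ) (Q N1 : ℕ) [NeZero (Q * N1)]
    (hcop : Q.Coprime N1) :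
    ∃ w : FF K (Q * N1) ≃ₐ[K] FF K (Q * N1),
      ∀ d hd, (w (gen K (Q * N1) d hd) : LaurentSeries K) = jd K (alIdx Q d) := by
  have hQN : Q * N1 ≠ 0 := NeZero.ne _
  have hQ : Q ≠ 0 := left_ne_zero_of_mul hQN
  obtain ⟨φ, hφ⟩ := exists_wEmb ι Q N1 hcop
  have hmem : ∀ u : FF K (Q * N1), φ u ∈ FF K (Q * N1) := by
    intro u
    induction u using FF_induction with
    | hgen d hd =>
      rw [hφ]
      exact jd_mem K hQN (alIdx_dvd hcop hd)
    | hconst c =>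
      rw [φ.commutes]
      exact (FF K (Q * N1)).algebraMap_mem c
    | hadd a b ha hb =>
      have h : φ (a + b) = φ a + φ b := (φ : FF K (Q * N1) →+* LaurentSeries K).map_add a b
      rw [h]
      exact add_mem ha hb
    | hmul a b ha hb =>
      rw [map_mul]
      exact mul_mem ha hb
    | hinv a ha =>
      rw [map_inv₀]
      exact inv_mem ha
  let φ' : FF K (Q * N1) →ₐ[K] FF K (Q * N1) :=
    { toFun := fun u => ⟨φ u, hmem u⟩
      map_one' := Subtype.ext (map_one φ)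
      map_mul' := fun a b => Subtype.ext (map_mul φ a b)
      map_zero' := Subtype.ext (map_zero φ)
      map_add' := fun a b => Subtype.ext (map_add φ a b)
      commutes' := fun c => Subtype.ext (φ.commutes c) }
  have hφ' : ∀ d hd, φ' (gen K (Q * N1) d hd) = gen K (Q * N1) (alIdx Q d) (alIdx_dvd hcop hd) :=
    fun d hd => Subtype.ext (hφ d hd)
  have hinv : φ'.comp φ' = AlgHom.id K (FF K (Q * N1)) := by
    refine algHom_ext_gen (Q * N1) _ _ fun d hd => ?_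
    rw [AlgHom.comp_apply, hφ', hφ', AlgHom.id_apply]
    refine Subtype.ext ?_
    rw [coe_gen, coe_gen, alIdx_alIdx hQ hcop hd]
  refine ⟨AlgEquiv.ofAlgHom φ' φ' hinv hinv, fun d hd => ?_⟩
  exact hφ d hd

/-- The Atkin-Lehner involution (junk if it does not exist, e.g. if `K` does not embed
into `ℂ`). -/
noncomputable def wQ (K : Type) [Field K] (Q N1 : ℕ) [NeZero (Q * N1)] :
    FF K (Q * N1) ≃ₐ[K] FF K (Q * N1) :=
  haveI : Nonempty (FF K (Q * N1) ≃ₐ[K] FF K (Q * N1)) := ⟨AlgEquiv.refl⟩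
  Classical.epsilon fun w : FF K (Q * N1) ≃ₐ[K] FF K (Q * N1) =>
      ∀ d hd, (w (gen K (Q * N1) d hd) : LaurentSeries K) = jd K (alIdx Q d)

theorem wQ_gen {K : Type} [Field K] (ι : K →+* ℂ) (Q N1 : ℕ) [NeZero (Q * N1)]
    (hcop : Q.Coprime N1) (d : ℕ) (hd : d ∣ Q * N1) :
    (wQ K Q N1 (gen K (Q * N1) d hd) : LaurentSeries K) = jd K (alIdx Q d) := by
  exact Classical.epsilon_spec (exists_wQ ι Q N1 hcop) d hd

theorem AtkinLehner_wQ_gen' {K : Type} [Field K] (ι : K →+* ℂ) (Q N1 : ℕ) [NeZero (Q * N1)]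
    (hcop : Q.Coprime N1) (d : ℕ) (hd : d ∣ Q * N1) :
    wQ K Q N1 (gen K (Q * N1) d hd) = gen K (Q * N1) (alIdx Q d) (alIdx_dvd hcop hd) :=
  Subtype.ext (wQ_gen ι Q N1 hcop d hd)

theorem AtkinLehner_mapFF_gen {K K' : Type} [Field K] [Field K'] (σ : K →+* K') (N : ℕ) [NeZero N]
    (d : ℕ) (hd : d ∣ N) : E.mapFF σ N (gen K N d hd) = gen K' N d hd :=
  Subtype.ext (by rw [E.coe_mapFF, coe_gen, coe_gen, coeffMap_jd])

theorem AtkinLehner_mapFF_algebraMap {K K' : Type} [Field K] [Field K'] (σ : K →+* K') (N : ℕ)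
    (c : K) : E.mapFF σ N (algebraMap K (FF K N) c) = algebraMap K' (FF K' N) (σ c) := by
  refine Subtype.ext ?_
  rw [E.coe_mapFF]
  show coeffMap σ (algebraMap K (LaurentSeries K) c) = algebraMap K' (LaurentSeries K') (σ c)
  rw [algebraMap_laurentSeries_eq_single, algebraMap_laurentSeries_eq_single, coeffMap_single]

theorem wQ_wQ {K : Type} [Field K] (ι : K →+* ℂ) (Q N1 : ℕ) [NeZero (Q * N1)]
    (hcop : Q.Coprime N1) (u : FF K (Q * N1)) : wQ K Q N1 (wQ K Q N1 u) = u := by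
  have hQN : Q * N1 ≠ 0 := NeZero.ne _
  have hQ : Q ≠ 0 := left_ne_zero_of_mul hQN
  have h : ((wQ K Q N1 : FF K (Q * N1) →ₐ[K] FF K (Q * N1)).comp
      (wQ K Q N1 : FF K (Q * N1) →ₐ[K] FF K (Q * N1))) = AlgHom.id K (FF K (Q * N1)) := by
    refine algHom_ext_gen (Q * N1) _ _ fun d hd => ?_
    rw [AlgHom.comp_apply, AlgHom.id_apply, AlgEquiv.coe_toAlgHom, AtkinLehner_wQ_gen' ι Q N1 hcop,
      AtkinLehner_wQ_gen' ι Q N1 hcop]
    refine Subtype.ext ?_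
    rw [coe_gen, coe_gen, alIdx_alIdx hQ hcop hd]
  exact congrArg (fun f : FF K (Q * N1) →ₐ[K] FF K (Q * N1) => f u) h

/-- `w_Q` commutes with field homomorphisms on the coefficients (in particular with Galois). -/
theorem mapFF_wQ {K K' : Type} [Field K] [Field K'] (ι' : K' →+* ℂ) (σ : K →+* K') (Q N1 : ℕ)
    [NeZero (Q * N1)] (hcop : Q.Coprime N1) (u : FF K (Q * N1)) :
    E.mapFF σ (Q * N1) (wQ K Q N1 u) = wQ K' Q N1 (E.mapFF σ (Q * N1) u) := by
  have h : (E.mapFF σ (Q * N1)).comp (wQ K Q N1 : FF K (Q * N1) →+* FF K (Q * N1)) =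
      (wQ K' Q N1 : FF K' (Q * N1) →+* FF K' (Q * N1)).comp (E.mapFF σ (Q * N1)) := by
    refine ringHom_ext_gen (Q * N1) _ _ (fun c => ?_) fun d hd => ?_
    · rw [RingHom.comp_apply, RingHom.comp_apply, RingHom.coe_coe, RingHom.coe_coe,
        AlgEquiv.commutes, AtkinLehner_mapFF_algebraMap, AlgEquiv.commutes]
    · rw [RingHom.comp_apply, RingHom.comp_apply, RingHom.coe_coe, RingHom.coe_coe,
        AtkinLehner_wQ_gen' (ι'.comp σ) Q N1 hcop, AtkinLehner_mapFF_gen, AtkinLehner_mapFF_gen,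
        AtkinLehner_wQ_gen' ι' Q N1 hcop]
  exact congrArg (fun f : FF K (Q * N1) →+* FF K' (Q * N1) => f u) h

end Fermat.Agent.GT.EMB
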