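import Mathlib

/-!
# GT-EMB, file 2a: the action of `w_Q` on the divisors of `Q * N1`
-/

set_option autoImplicit false

namespace Fermat.Agent.GT.EMB

/-- the action of `w_Q` on the divisors of `Q * N1`. -/
def alIdx (Q d : ℕ) : ℕ := Q / Nat.gcd d Q * (d / Nat.gcd d Q)

theorem alIdx_mul {Q N1 : ℕ} (hcop : Q.Coprime N1) {a b : ℕ} (ha : a ∣ Q) (hb : b ∣ N1) :
    alIdx Q (a * b) = Q / a * b := by
  have hbQ : Nat.Coprime b Q := (Nat.Coprime.coprime_dvd_right hb hcop).symm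
  have hg : Nat.gcd (a * b) Q = a := by
    rw [Nat.Coprime.gcd_mul_right_cancel a hbQ, Nat.gcd_eq_left ha]
  unfold alIdx
  rw [hg]
  rcases Nat.eq_zero_or_pos a with rfl | hpos
  · simp
  · rw [Nat.mul_div_cancel_left b hpos]

theorem ALIdx_exists_mul {Q N1 : ℕ} {d : ℕ} (hd : d ∣ Q * N1) :
    ∃ a b : ℕ, a ∣ Q ∧ b ∣ N1 ∧ d = a * b := by
  obtain ⟨a, b, ha, hb, h⟩ := exists_dvd_and_dvd_of_dvd_mul hd
  exact ⟨a, b, ha, hb, h⟩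

theorem alIdx_dvd {Q N1 : ℕ} (hcop : Q.Coprime N1) {d : ℕ} (hd : d ∣ Q * N1) :
    alIdx Q d ∣ Q * N1 := by
  obtain ⟨a, b, ha, hb, rfl⟩ := ALIdx_exists_mul hd
  rw [alIdx_mul hcop ha hb]
  exact Nat.mul_dvd_mul (Nat.div_dvd_of_dvd ha) hb

theorem alIdx_alIdx {Q N1 : ℕ} (hQ : Q ≠ 0) (hcop : Q.Coprime N1) {d : ℕ} (hd : d ∣ Q * N1) :
    alIdx Q (alIdx Q d) = d := by
  obtain ⟨a, b, ha, hb, rfl⟩ := ALIdx_exists_mul hd
  rw [alIdx_mul hcop ha hb, alIdx_mul hcop (Nat.div_dvd_of_dvd ha) hb, Nat.div_div_self ha hQ]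

end Fermat.Agent.GT.EMB
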