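import Fermat.Agent.GR.A.EvF
import Fermat.Agent.GR.B.ModFrac
import Fermat.Agent.GR.E.Model

/-!
# GT-EMB, file 1: embeddings of the function field `FF K N` into `K((t))`, general construction

A `K`-embedding of `FF K N = K(j(t^d) : d ∣ N)` is determined by the images of the generators
(`algHom_ext_gen`, `ringHom_ext_gen`), and it exists as soon as the images `y d` are the expansions
of the functions `τ ↦ j(d · g τ)` for a surjective map `g : ℍ → ℍ` (`exists_emb`).
-/

set_option autoImplicit false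

open UpperHalfPlane ModularCurve

namespace Fermat.Agent.GT.EMB

open Fermat.Agent.GR
open Fermat.Agent.S28 (IsExp)

/-- `j(t^d)`, total in `d` (junk `0` for `d = 0`). -/
noncomputable def jd (K : Type*) [Field K] (d : ℕ) : LaurentSeries K :=
  if h : d = 0 then 0 else (haveI : NeZero d := ⟨h⟩; qExpand K d (jqModC K))

theorem jd_eq (K : Type*) [Field K] (d : ℕ) [NeZero d] : jd K d = qExpand K d (jqModC K) :=
  dif_neg (NeZero.ne d)

theorem jd_mem (K : Type*) [Field K] {N d : ℕ} (hN : N ≠ 0) (hd : d ∣ N) : jd K d ∈ FF K N := by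
  have : NeZero d := ⟨fun h => hN (by rw [h] at hd; exact Nat.eq_zero_of_zero_dvd hd)⟩
  rw [jd_eq]
  exact jqModCd_mem_full K N hd

theorem coeffMap_jd {K K' : Type*} [Field K] [Field K'] (σ : K →+* K') (d : ℕ) :
    coeffMap σ (jd K d) = jd K' d := by
  by_cases h : d = 0
  · subst h
    simp [jd]
  · have : NeZero d := ⟨h⟩
    rw [jd_eq, jd_eq, coeffMap_qExpand, coeffMap_jqModC]

/-- the generators of the function field. -/
noncomputable def gen (K : Type*) [Field K] (N : ℕ) [NeZero N] (d : ℕ) (hd : d ∣ N) : FF K N :=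
  ⟨jd K d, jd_mem K (NeZero.ne N) hd⟩

@[simp] theorem coe_gen (K : Type*) [Field K] (N : ℕ) [NeZero N] (d : ℕ) (hd : d ∣ N) :
    (gen K N d hd : LaurentSeries K) = jd K d := rfl

/-- induction principle for the function field. -/
theorem FF_induction {K : Type*} [Field K] (N : ℕ) [NeZero N] {p : FF K N → Prop}
    (hgen : ∀ d hd, p (gen K N d hd)) (hconst : ∀ c : K, p (algebraMap K (FF K N) c))
    (hadd : ∀ a b, p a → p b → p (a + b)) (hmul : ∀ a b, p a → p b → p (a * b))
    (hinv : ∀ a, p a → p a⁻¹) (a : FF K N) : p a := by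
  obtain ⟨a, ha⟩ := a
  have key : ∀ x (hx : x ∈ IntermediateField.adjoin K (divisorExpansionsC K N)),
      p (⟨x, hx⟩ : FF K N) := by
    intro x hx
    induction hx using IntermediateField.adjoin_induction with
    | mem x hx =>
      obtain ⟨d, hd0, hd, rfl⟩ := hx
      have e : (⟨qExpand K d (jqModC K), IntermediateField.subset_adjoin K _ ⟨d, hd0, hd, rfl⟩⟩ :
          FF K N) = gen K N d hd := Subtype.ext (jd_eq K d).symm
      exact e ▸ hgen d hd
    | algebraMap c =>
      have e : (⟨algebraMap K (LaurentSeries K) c, (FF K N).algebraMap_mem c⟩ : FF K N) =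
          algebraMap K (FF K N) c := Subtype.ext (IntermediateField.coe_algebraMap_apply _ c).symm
      exact e ▸ hconst c
    | add x y hx hy h1 h2 =>
      have e : (⟨x + y, (FF K N).add_mem hx hy⟩ : FF K N) =
          (⟨x, hx⟩ : FF K N) + (⟨y, hy⟩ : FF K N) :=
        Subtype.ext (IntermediateField.coe_add (FF K N) ⟨x, hx⟩ ⟨y, hy⟩).symm
      exact e ▸ hadd _ _ h1 h2
    | inv x hx h1 =>
      have e : (⟨x⁻¹, (FF K N).inv_mem hx⟩ : FF K N) = (⟨x, hx⟩ : FF K N)⁻¹ :=
        Subtype.ext (IntermediateField.coe_inv (FF K N) ⟨x, hx⟩).symm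
      exact e ▸ hinv _ h1
    | mul x y hx hy h1 h2 =>
      have e : (⟨x * y, (FF K N).mul_mem hx hy⟩ : FF K N) =
          (⟨x, hx⟩ : FF K N) * (⟨y, hy⟩ : FF K N) :=
        Subtype.ext (IntermediateField.coe_mul (FF K N) ⟨x, hx⟩ ⟨y, hy⟩).symm
      exact e ▸ hmul _ _ h1 h2
  exact key a ha

theorem ringHom_ext_gen {K : Type*} [Field K] (N : ℕ) [NeZero N] {E : Type*} [Field E]
    (φ ψ : FF K N →+* E)
    (hc : ∀ c : K, φ (algebraMap K (FF K N) c) = ψ (algebraMap K (FF K N) c))
    (hg : ∀ d hd, φ (gen K N d hd) = ψ (gen K N d hd)) : φ = ψ := by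
  ext a
  induction a using FF_induction with
  | hgen d hd => exact hg d hd
  | hconst c => exact hc c
  | hadd a b ha hb => rw [map_add, map_add, ha, hb]
  | hmul a b ha hb => rw [map_mul, map_mul, ha, hb]
  | hinv a ha => rw [map_inv₀, map_inv₀, ha]

theorem algHom_ext_gen {K : Type*} [Field K] (N : ℕ) [NeZero N] {E : Type*} [Field E] [Algebra K E]
    (φ ψ : FF K N →ₐ[K] E) (hg : ∀ d hd, φ (gen K N d hd) = ψ (gen K N d hd)) : φ = ψ := by
  have h := ringHom_ext_gen N (φ : FF K N →+* E) (ψ : FF K N →+* E)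
    (fun c => by simp) hg
  exact AlgHom.ext fun a => RingHom.congr_fun h a

/-- THE GENERAL CONSTRUCTION. -/
theorem exists_emb {K : Type} [Field K] (ι : K →+* ℂ) (N : ℕ) [NeZero N] (g : ℍ → ℍ)
    (hg : Function.Surjective g) (y : ℕ → LaurentSeries K)
    (hy : ∀ (d : ℕ) (_ : NeZero d), d ∣ N →
      IsExp 1 (fun τ => S24.jdfun d (g τ)) (coeffMap ι (y d))) :
    ∃ φ : FF K N →ₐ[K] LaurentSeries K, ∀ d hd, φ (gen K N d hd) = y d := by
  -- the expansion of `(evA a) ∘ g`
  have hex : ∀ a : A.A1 K N, ∃ s : LaurentSeries K,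
      IsExp 1 (fun τ => (A.evA ι N a : ℍ → ℂ) (g τ)) (coeffMap ι s) := by
    intro a
    induction a using A.A1_induction with
    | hgen d hd0 hd =>
      exact ⟨y d, (hy d hd0 hd).congr fun τ => (A.evA_jdA ι N d hd (g τ)).symm⟩
    | hconst c =>
      refine ⟨algebraMap K (LaurentSeries K) c, ?_⟩
      rw [A.coeffMap_algebraMap, A.evA_algebraMap]
      exact S28.isExp_C 1 (ι c)
    | hadd a b ha hb =>
      obtain ⟨s, hs⟩ := ha
      obtain ⟨s', hs'⟩ := hb
      refine ⟨s + s', ?_⟩
      rw [map_add, map_add]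
      exact hs.add hs'
    | hmul a b ha hb =>
      obtain ⟨s, hs⟩ := ha
      obtain ⟨s', hs'⟩ := hb
      refine ⟨s * s', ?_⟩
      rw [map_mul, map_mul]
      exact hs.mul hs'
  choose Ψ hΨ using hex
  have huniq : ∀ (a : A.A1 K N) (s : LaurentSeries K),
      IsExp 1 (fun τ => (A.evA ι N a : ℍ → ℂ) (g τ)) (coeffMap ι s) → Ψ a = s := fun a s hs =>
    A.coeffMap_injective ι ((hΨ a).unique one_pos hs)
  let Ψr : A.A1 K N →+* LaurentSeries K :=
    { toFun := Ψ
      map_one' := huniq _ _ (by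
        rw [map_one, map_one]
        exact S28.isExp_one 1)
      map_mul' := fun a b => huniq _ _ (by
        rw [map_mul, map_mul]
        exact (hΨ a).mul (hΨ b))
      map_zero' := huniq _ _ (by
        rw [map_zero, map_zero]
        exact S28.isExp_zero 1)
      map_add' := fun a b => huniq _ _ (by
        rw [map_add, map_add]
        exact (hΨ a).add (hΨ b)) }
  have hinj : Function.Injective Ψr := by
    rw [injective_iff_map_eq_zero]
    intro a ha
    have h1 := hΨ a
    have h2 : Ψ a = 0 := ha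
    rw [h2, map_zero] at h1
    apply A.evA_injective ι N
    rw [map_zero]
    apply Subtype.ext
    funext τ
    obtain ⟨τ', rfl⟩ := hg τ
    exact h1.fun_unique (S28.isExp_zero 1) τ'
  obtain ⟨φ, hφ⟩ := A.exists_lift K N Ψr hinj
  have hconst : ∀ c : K, Ψ (algebraMap K (A.A1 K N) c) = algebraMap K (LaurentSeries K) c :=
    fun c => huniq _ _ (by
      rw [A.coeffMap_algebraMap, A.evA_algebraMap]
      exact S28.isExp_C 1 (ι c))
  refine ⟨{ φ with
    commutes' := fun c => by
      have h1 : algebraMap K (FF K N) c = A.incl K N (algebraMap K (A.A1 K N) c) :=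
        ((A.incl K N).commutes c).symm
      show φ (algebraMap K (FF K N) c) = _
      rw [h1, hφ]
      exact hconst c }, fun d hd => ?_⟩
  have hd0 : NeZero d := ⟨fun h => NeZero.ne N (by rw [h] at hd; exact Nat.eq_zero_of_zero_dvd hd)⟩
  have h1 : gen K N d hd = A.incl K N (A.jdA K N d hd) := Subtype.ext (jd_eq K d)
  show φ (gen K N d hd) = y d
  rw [h1, hφ]
  exact huniq _ _ ((hy d hd0 hd).congr fun τ => (A.evA_jdA ι N d hd (g τ)).symm)

end Fermat.Agent.GT.EMB
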