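import Fermat.Agent.GT.EMB.Norm1

/-!
# GT-EMB, file 5b: the two norms from level `q² M0` to level `q M0` (over `ℚ̄`)

* `normFF u = u * ∏_{a = 1}^{q-1} iotaMid (ζ^a) u`;
* `normT q ζ u` has level `q M0` and `normFF (w_{q²} u) = w_q (normT q ζ u)`.
-/

set_option autoImplicit false
set_option synthInstance.maxHeartbeats 400000

open ModularCurve

namespace Fermat.Agent.GT.EMB

open Fermat.Agent.GR Fermat.Agent.GR.E

variable {q M0 : ℕ}

/-- the product `∏_j u(ζ^j t)` is invariant under `t ↦ ζ t`. -/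
theorem Norm2_scaleHom_prod {K : Type*} [Field K] [NeZero q] (ζ : Kˣ) (hζ : ζ ^ q = 1)
    (u : LaurentSeries K) :
    scaleHom ζ (∏ j ∈ Finset.range q, scaleHom (ζ ^ j) u) =
      ∏ j ∈ Finset.range q, scaleHom (ζ ^ j) u := by
  obtain ⟨m, hm⟩ : ∃ m, q = m + 1 := Nat.exists_eq_succ_of_ne_zero (NeZero.ne q)
  rw [map_prod]
  have h1 : ∀ j, scaleHom ζ (scaleHom (ζ ^ j) u) = scaleHom (ζ ^ (j + 1)) u := by
    intro j
    rw [scaleHom_scaleHom, pow_succ']
  simp only [h1]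
  rw [hm, Finset.prod_range_succ, Finset.prod_range_succ' (fun j => scaleHom (ζ ^ j) u), ← hm, hζ,
    pow_zero]

/-- formal: `(normT q ζ u)(t^q) = ∏_j u(ζ^j t)`. -/
theorem qExpand_normT {K : Type*} [Field K] [NeZero q] (ζ : Kˣ) (hζ : IsPrimitiveRoot ζ q)
    (u : LaurentSeries K) :
    qExpand K q (normT q ζ u) = ∏ j ∈ Finset.range q, scaleHom (ζ ^ j) u := by
  unfold normT
  apply qExpand_Uop
  intro n hn
  have h1 := congrArg (fun f : LaurentSeries K => f.coeff n)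
    (Norm2_scaleHom_prod ζ hζ.pow_eq_one u)
  simp only [scaleHom_coeff] at h1
  have h2 : ((ζ ^ n : Kˣ) : K) ≠ 1 := by
    intro h
    apply hn
    rw [← hζ.zpow_eq_one_iff_dvd]
    exact Units.ext h
  by_contra h3
  exact h2 (mul_right_cancel₀ h3 (h1.trans (one_mul _).symm))

/-- ABSTRACT: two structures of `F`-algebra on `G` which are conjugate. -/
theorem Norm2_abs {F G Ω : Type*} [Field F] [Field G] [Field Ω] [CharZero F]
    (istd itw : F →+* G) (e₁ : F ≃+* F) (e₂ : G ≃+* G)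
    (he : istd.comp (e₁ : F →+* F) = (e₂ : G →+* G).comp itw)
    (n : ℕ) (hn : 0 < n)
    (hrank : @Module.finrank F G _ _ istd.toAlgebra.toModule = n)
    (θ : F →+* Ω) (φ : Fin n → G →+* Ω) (hφθ : ∀ j, (φ j).comp itw = θ)
    (hφ : Function.Injective φ) (x : G) :
    θ (@Algebra.norm F G _ _ itw.toAlgebra x) = ∏ j, φ j x ∧
    @Algebra.norm F G _ _ istd.toAlgebra (e₂ x) = e₁ (@Algebra.norm F G _ _ itw.toAlgebra x) := by
  have hr : @Module.finrank F G _ _ itw.toAlgebra.toModule = n := by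
    rw [← hrank]
    exact @Algebra.finrank_eq_of_equiv_equiv F G _ _ itw.toAlgebra F G _ _ istd.toAlgebra e₁ e₂ he
  have h2 := @Algebra.norm_eq_of_equiv_equiv F G F G _ _ _ _ itw.toAlgebra istd.toAlgebra e₁ e₂ he x
  refine ⟨?_, ?_⟩
  · let _ := itw.toAlgebra
    let _ := θ.toAlgebra
    have hfd : FiniteDimensional F G := Module.finite_of_finrank_pos (by rw [hr]; exact hn)
    let ψ : Fin n → G →ₐ[F] Ω := fun j =>
      { φ j with commutes' := fun a => RingHom.congr_fun (hφθ j) a }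
    have hψ : Function.Injective ψ := by
      intro j j' h
      apply hφ
      ext y
      exact DFunLike.congr_fun h y
    exact norm_eq_prod_of_embeddings ψ hψ (by rw [Fintype.card_fin, hr]) x
  · rw [h2, RingEquiv.apply_symm_apply]

theorem Norm2_finrank_inclusion {K M : Type*} [Field K] [Field M] [Algebra K M]
    {E E' : IntermediateField K M} (h : E ≤ E') :
    @Module.finrank E E' _ _ (IntermediateField.inclusion h).toRingHom.toAlgebra.toModule =
      E.relfinrank E' := by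
  rw [IntermediateField.relfinrank_eq_finrank_of_le h]
  let e : E' ≃+* IntermediateField.extendScalars h :=
    { toFun := fun x => ⟨x.1, x.2⟩
      invFun := fun x => ⟨x.1, x.2⟩
      left_inv := fun _ => rfl
      right_inv := fun _ => rfl
      map_mul' := fun _ _ => rfl
      map_add' := fun _ _ => rfl }
  exact @Algebra.finrank_eq_of_equiv_equiv E E' _ _
    (IntermediateField.inclusion h).toRingHom.toAlgebra E (IntermediateField.extendScalars h) _ _ _
    (RingEquiv.refl E) e rfl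

theorem Norm2_scaleHom_qExpand {K : Type*} [Field K] [NeZero q] (c : Kˣ) (hc : c ^ q = 1)
    (f : LaurentSeries K) : scaleHom c (qExpand K q f) = qExpand K q f := by
  ext n
  rw [scaleHom_coeff]
  by_cases hn : (q : ℤ) ∣ n
  · obtain ⟨k, rfl⟩ := hn
    rw [zpow_mul, zpow_natCast, hc, one_zpow, Units.val_one, one_mul]
  · rw [qExpand_coeff_of_not_dvd q f hn, mul_zero]

theorem Norm2_qExpand_mem [NeZero q] {u : LaurentSeries Qb} (hu : u ∈ FF Qb (q * M0)) :
    qExpand Qb q u ∈ FF Qb (q ^ 2 * M0) := by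
  have h := qExpand_mem_FF q hu
  rwa [show q * (q * M0) = q ^ 2 * M0 by ring] at h

/-- the twisted inclusion `f ↦ f(t^q)`. -/
noncomputable def Norm2_itw (q M0 : ℕ) [NeZero q] : FF Qb (q * M0) →+* FF Qb (q ^ 2 * M0) :=
  ((qExpand Qb q).comp (FF Qb (q * M0)).val.toRingHom).codRestrict (FF Qb (q ^ 2 * M0))
    (fun f => Norm2_qExpand_mem f.2)

theorem Norm2_coe_itw [NeZero q] (f : FF Qb (q * M0)) :
    (Norm2_itw q M0 f : LaurentSeries Qb) = qExpand Qb q (f : LaurentSeries Qb) := rfl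

/-- the twisted norm `G → F` (with respect to `f ↦ f(t^q)`). -/
noncomputable def Norm2_normTw (q M0 : ℕ) [NeZero q] (u : FF Qb (q ^ 2 * M0)) : FF Qb (q * M0) :=
  @Algebra.norm (FF Qb (q * M0)) (FF Qb (q ^ 2 * M0)) _ _ (Norm2_itw q M0).toAlgebra u

theorem Norm2_main [NeZero q] [NeZero (q * M0)] [NeZero (q ^ 2 * M0)] (hq : q.Prime)
    (hqM : ¬ q ∣ M0) (ζ : Qbˣ) (hζ : IsPrimitiveRoot ζ q) (u : FF Qb (q ^ 2 * M0)) :
    qExpand Qb q (Norm2_normTw q M0 u : LaurentSeries Qb) =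
        ∏ j ∈ Finset.range q, scaleHom (ζ ^ j) (u : LaurentSeries Qb) ∧
      normFF Qb (N := q * M0) (N' := q ^ 2 * M0) ⟨q, by ring⟩ (wQ Qb (q ^ 2) M0 u) =
        wQ Qb q M0 (Norm2_normTw q M0 u) := by
  obtain ⟨ι⟩ : Nonempty (Qb →+* ℂ) := S24.nonempty_iotaC
  have hM0 : M0 ≠ 0 := fun h => NeZero.ne (q * M0) (by rw [h, mul_zero])
  have hle : FF Qb (q * M0) ≤ FF Qb (q ^ 2 * M0) := BR8_FF_le Qb ⟨q, by ring⟩
  have hchar : CharZero (FF Qb (q * M0)) :=
    charZero_of_injective_algebraMap (algebraMap Qb (FF Qb (q * M0))).injective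
  have he : (IntermediateField.inclusion hle).toRingHom.comp
      ((wQ Qb q M0).toRingEquiv : FF Qb (q * M0) →+* FF Qb (q * M0)) =
      ((wQ Qb (q ^ 2) M0).toRingEquiv : FF Qb (q ^ 2 * M0) →+* FF Qb (q ^ 2 * M0)).comp
        (Norm2_itw q M0) := by
    refine RingHom.ext fun f => Subtype.ext ?_
    exact (wQ_sq_qExpand ι hq hqM f (Norm2_qExpand_mem f.2)).symm
  have hrank : @Module.finrank (FF Qb (q * M0)) (FF Qb (q ^ 2 * M0)) _ _
      (IntermediateField.inclusion hle).toRingHom.toAlgebra.toModule = q := by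
    rw [Norm2_finrank_inclusion hle, relfinrank_FF_sq hq hM0 hqM]
  have hpow : ∀ j : ℕ, (ζ ^ j) ^ q = 1 := fun j => by
    rw [← pow_mul, mul_comm, pow_mul, hζ.pow_eq_one, one_pow]
  have hinj : Function.Injective (fun j : Fin q =>
      (scaleHom (ζ ^ (j : ℕ))).comp (FF Qb (q ^ 2 * M0)).val.toRingHom) := by
    intro j j' h
    have h1 := RingHom.congr_fun h ⟨jqModC Qb, jqModC_mem_full Qb _⟩
    have h2 := congrArg (fun f : LaurentSeries Qb => f.coeff (-1)) h1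
    change (scaleHom (ζ ^ (j : ℕ)) (jqModC Qb)).coeff (-1) =
      (scaleHom (ζ ^ (j' : ℕ)) (jqModC Qb)).coeff (-1) at h2
    rw [scaleHom_coeff, scaleHom_coeff, coeff_jqModC_neg_one, mul_one, mul_one] at h2
    have h3 : (ζ ^ (j : ℕ)) ^ (-1 : ℤ) = (ζ ^ (j' : ℕ)) ^ (-1 : ℤ) := Units.ext h2
    rw [zpow_neg_one, zpow_neg_one, inv_inj] at h3
    exact Fin.ext (hζ.pow_inj j.2 j'.2 h3)
  obtain ⟨h1, h2⟩ := Norm2_abs (IntermediateField.inclusion hle).toRingHom (Norm2_itw q M0)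
    (wQ Qb q M0).toRingEquiv (wQ Qb (q ^ 2) M0).toRingEquiv he q hq.pos hrank
    ((qExpand Qb q).comp (FF Qb (q * M0)).val.toRingHom)
    (fun j : Fin q => (scaleHom (ζ ^ (j : ℕ))).comp (FF Qb (q ^ 2 * M0)).val.toRingHom)
    (fun j => by
      ext1 f
      exact Norm2_scaleHom_qExpand _ (hpow j) _)
    hinj u
  refine ⟨?_, h2⟩
  rw [← Fin.prod_univ_eq_prod_range (fun j => scaleHom (ζ ^ j) (u : LaurentSeries Qb)) q]
  exact h1

theorem Norm2_normTw_eq [NeZero q] [NeZero (q * M0)] [NeZero (q ^ 2 * M0)] (hq : q.Prime)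
    (hqM : ¬ q ∣ M0) (ζ : Qbˣ) (hζ : IsPrimitiveRoot ζ q) (u : FF Qb (q ^ 2 * M0)) :
    (Norm2_normTw q M0 u : LaurentSeries Qb) = normT q ζ (u : LaurentSeries Qb) := by
  apply qExpand_injective (R := Qb) q
  rw [(Norm2_main hq hqM ζ hζ u).1, qExpand_normT ζ hζ]

/-- (N2a) `U_q` lowers the level from `q² M0` to `q M0`. -/
theorem normT_mem_FF_of_sq [NeZero q] (hq : q.Prime) (hM0 : M0 ≠ 0) (hqM : ¬ q ∣ M0) (ζ : Qbˣ)
    (hζ : IsPrimitiveRoot ζ q) {u : LaurentSeries Qb} (hu : u ∈ FF Qb (q ^ 2 * M0)) :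
    normT q ζ u ∈ FF Qb (q * M0) := by
  have : NeZero (q * M0) := ⟨mul_ne_zero hq.ne_zero hM0⟩
  have : NeZero (q ^ 2 * M0) := ⟨mul_ne_zero (pow_ne_zero _ hq.ne_zero) hM0⟩
  have h := Norm2_normTw_eq hq hqM ζ hζ ⟨u, hu⟩
  change _ = normT q ζ u at h
  rw [← h]
  exact (Norm2_normTw q M0 ⟨u, hu⟩).2

/-- (N2b) the second norm is conjugate to the first one under Atkin-Lehner. -/
theorem normFF_wQ [NeZero q] [NeZero (q * M0)] [NeZero (q ^ 2 * M0)] (hq : q.Prime)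
    (hqM : ¬ q ∣ M0) (ζ : Qbˣ) (hζ : IsPrimitiveRoot ζ q) (u : FF Qb (q ^ 2 * M0))
    (h : normT q ζ (u : LaurentSeries Qb) ∈ FF Qb (q * M0)) :
    normFF Qb (N := q * M0) (N' := q ^ 2 * M0) ⟨q, by ring⟩ (wQ Qb (q ^ 2) M0 u) =
      wQ Qb q M0 ⟨normT q ζ (u : LaurentSeries Qb), h⟩ := by
  rw [(Norm2_main hq hqM ζ hζ u).2]
  congr 1
  exact Subtype.ext (Norm2_normTw_eq hq hqM ζ hζ u)

end Fermat.Agent.GT.EMB
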