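import Fermat.Agent.GT.EMB.Level
import Fermat.Agent.GT.Iface
import Fermat.Agent.GR.E.BR10

/-!
# GT-EMB, file 5a: the two norms from level `q² M0` to level `q M0` (over `ℚ̄`)

* `normFF u = u * ∏_{a = 1}^{q-1} iotaMid (ζ^a) u`;
* `normT q ζ u` has level `q M0` and `normFF (w_{q²} u) = w_q (normT q ζ u)`.
-/

set_option autoImplicit false
set_option synthInstance.maxHeartbeats 400000

open ModularCurve

namespace Fermat.Agent.GT.EMB

open Fermat.Agent.GR Fermat.Agent.GR.E

variable {q M0 : ℕ}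

/-- the degree of `X₀(q² M0) → X₀(q M0)`. -/
theorem relfinrank_FF_sq (hq : q.Prime) (hM0 : M0 ≠ 0) (hqM : ¬ q ∣ M0) :
    (FF Qb (q * M0)).relfinrank (FF Qb (q ^ 2 * M0)) = q := by
  have hN : q * M0 ≠ 0 := mul_ne_zero hq.ne_zero hM0
  have : NeZero (q * M0) := ⟨hN⟩
  have : NeZero (q ^ 2 * M0) := ⟨mul_ne_zero (pow_ne_zero 2 hq.ne_zero) hM0⟩
  have hdvd : q * M0 ∣ q ^ 2 * M0 := ⟨q, by ring⟩
  have h1 := IntermediateField.relfinrank_mul_relfinrank (BR10_j_le (q * M0)) (BR10_FF_mono hdvd)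
  have hpsi : dedekindPsi (q ^ 2 * M0) = q * dedekindPsi (q * M0) := by
    have : q ^ 2 * M0 = q * (q * M0) := by ring
    rw [this]
    exact Fermat.Agent.S20.AR.dedekindPsi_mul_of_dvd hN (Dvd.intro _ rfl) hq.ne_zero
  rw [BR10_relfinrank_j, BR10_relfinrank_j, hpsi, mul_comm] at h1
  have h2 : dedekindPsi (q * M0) ≠ 0 := by
    rw [← Fermat.Agent.S24.card_cosets]
    exact Nat.card_pos.ne'
  exact Nat.eq_of_mul_eq_mul_right (Nat.pos_of_ne_zero h2) h1

/-- ABSTRACT: the norm is the product of the conjugates, for a family of `[F' : F]` distinct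
`F`-embeddings into a field. -/
theorem norm_eq_prod_of_embeddings {F F' Ω : Type*} [Field F] [Field F'] [Field Ω] [Algebra F F']
    [Algebra F Ω] [FiniteDimensional F F'] [Algebra.IsSeparable F F'] {I : Type*} [Fintype I]
    (φ : I → F' →ₐ[F] Ω) (hφ : Function.Injective φ)
    (hcard : Fintype.card I = Module.finrank F F') (x : F') :
    algebraMap F Ω (Algebra.norm F x) = ∏ i, φ i x := by
  classical
  let Ωb := AlgebraicClosure Ω
  let c : Ω →ₐ[F] Ωb := IsScalarTower.toAlgHom F Ω Ωb
  have hc : Function.Injective c := c.toRingHom.injective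
  let ψ : I → (F' →ₐ[F] Ωb) := fun i => c.comp (φ i)
  have hψ : Function.Injective ψ := by
    intro i j hij
    apply hφ
    ext y
    apply hc
    exact DFunLike.congr_fun hij y
  have hbij : Function.Bijective ψ := by
    rw [Fintype.bijective_iff_injective_and_card]
    refine ⟨hψ, ?_⟩
    rw [hcard, AlgHom.card]
  apply hc
  have h1 := Algebra.norm_eq_prod_embeddings F Ωb x
  have h2 : c (algebraMap F Ω (Algebra.norm F x)) = algebraMap F Ωb (Algebra.norm F x) := by
    simp
  rw [h2, h1, map_prod]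
  exact (Function.Bijective.prod_comp hbij (fun σ => σ x)).symm

/-- an embedding of `ℚ̄` in `ℂ`. -/
noncomputable def Norm1_iota : Qb →+* ℂ :=
  haveI : Algebra.IsAlgebraic ℚ Qb := AlgebraicClosure.isAlgebraic ℚ
  (IsAlgClosed.lift (R := ℚ) (S := Qb) (M := ℂ)).toRingHom

/-- ABSTRACT: the norm from `E'` to `E` (for the algebra structure given by the inclusion) is the
product of the conjugates. -/
theorem Norm1_norm_inclusion {K M : Type*} [Field K] [Field M] [Algebra K M] [CharZero K]
    {E E' : IntermediateField K M} (hle : E ≤ E') {n : ℕ} (hn : n ≠ 0)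
    (hdeg : E.relfinrank E' = n) (g : ℕ → E' →ₐ[K] M)
    (hfix : ∀ a < n, ∀ x : E', (x : M) ∈ E → g a x = x)
    (hinj : ∀ a < n, ∀ b < n, g a = g b → a = b) (u : E') :
    letI : Algebra E E' := (IntermediateField.inclusion hle).toRingHom.toAlgebra
    ((Algebra.norm E u : E) : M) = ∏ a ∈ Finset.range n, g a u := by
  let _ : Algebra E E' := (IntermediateField.inclusion hle).toRingHom.toAlgebra
  show ((Algebra.norm E u : E) : M) = ∏ a ∈ Finset.range n, g a u
  have hmap : ∀ x : E, ((algebraMap E E' x : E') : M) = x := fun x => rfl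
  -- the degree
  let e : E' ≃ₗ[E] IntermediateField.extendScalars hle :=
    { toFun := fun x => ⟨x.1, x.2⟩
      invFun := fun x => ⟨x.1, x.2⟩
      map_add' := fun x y => rfl
      map_smul' := fun c x => rfl
      left_inv := fun x => rfl
      right_inv := fun x => rfl }
  have hfr : Module.finrank E E' = n := by
    rw [e.finrank_eq, ← IntermediateField.relfinrank_eq_finrank_of_le hle, hdeg]
  have : FiniteDimensional E E' :=
    Module.finite_of_finrank_pos (by rw [hfr]; exact Nat.pos_of_ne_zero hn)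
  have : CharZero E := charZero_of_injective_algebraMap (algebraMap K E).injective
  let φ : Fin n → E' →ₐ[E] M := fun a =>
    { (g a).toRingHom with
      commutes' := fun x => hfix a a.2 (algebraMap E E' x) x.2 }
  have hφ : Function.Injective φ := by
    intro a b hab
    apply Fin.ext
    apply hinj a a.2 b b.2
    ext y
    exact DFunLike.congr_fun hab y
  have h := norm_eq_prod_of_embeddings φ hφ (by rw [Fintype.card_fin, hfr]) u
  rw [← Fin.prod_univ_eq_prod_range (fun a => g a u) n]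
  exact h

/-- (N1) the norm `F_{q² M0} → F_{q M0}` in terms of expansions. -/
theorem normFF_eq_prod [NeZero (q ^ 2 * M0)] (hq : q.Prime) (hqM : ¬ q ∣ M0) (ζ : Qbˣ)
    (hζ : IsPrimitiveRoot ζ q) (u : FF Qb (q ^ 2 * M0)) :
    ((normFF Qb (N := q * M0) (N' := q ^ 2 * M0) ⟨q, by ring⟩ u : FF Qb (q * M0)) :
        LaurentSeries Qb) =
      (u : LaurentSeries Qb) * ∏ a ∈ Finset.Ico 1 q, iotaMid Qb q M0 (ζ ^ a) u := by
  have hM0 : M0 ≠ 0 := by
    intro h
    exact NeZero.ne (q ^ 2 * M0) (by rw [h, mul_zero])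
  have hprim : ∀ a, a ≠ 0 → a < q → IsPrimitiveRoot (ζ ^ a) q := by
    intro a ha haq
    apply hζ.pow_of_coprime
    exact (Nat.coprime_of_lt_prime ha haq hq).symm
  let g : ℕ → FF Qb (q ^ 2 * M0) →ₐ[Qb] LaurentSeries Qb := fun a =>
    if a = 0 then (FF Qb (q ^ 2 * M0)).val else iotaMid Qb q M0 (ζ ^ a)
  have hg0 : g 0 = (FF Qb (q ^ 2 * M0)).val := if_pos rfl
  have hg : ∀ a, a ≠ 0 → g a = iotaMid Qb q M0 (ζ ^ a) := fun a ha => if_neg ha
  have h := Norm1_norm_inclusion (BR8_FF_le Qb (⟨q, by ring⟩ : q * M0 ∣ q ^ 2 * M0)) hq.ne_zero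
    (relfinrank_FF_sq hq hM0 hqM) g ?_ ?_ u
  · unfold normFF
    rw [h, Finset.range_eq_Ico, Finset.prod_eq_prod_Ico_succ_bot hq.pos, hg0]
    congr 1
    apply Finset.prod_congr rfl
    intro a ha
    rw [hg a (by have := (Finset.mem_Ico.1 ha).1; omega)]
  · intro a ha x hx
    by_cases h0 : a = 0
    · rw [h0, hg0]; rfl
    · rw [hg a h0]
      exact iotaMid_of_mem Norm1_iota hq hqM _ (hprim a h0 ha) x hx
  · intro a ha b hb hab
    by_cases h0 : a = 0
    · by_cases h1 : b = 0
      · rw [h0, h1]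
      · rw [h0, hg0, hg b h1] at hab
        exact absurd hab.symm (iotaMid_ne_val Norm1_iota hq hqM _ (hprim b h1 hb))
    · by_cases h1 : b = 0
      · rw [h1, hg0, hg a h0] at hab
        exact absurd hab (iotaMid_ne_val Norm1_iota hq hqM _ (hprim a h0 ha))
      · rw [hg a h0, hg b h1] at hab
        exact hζ.pow_inj ha hb
          (iotaMid_injective_root Norm1_iota hq hqM _ (hprim a h0 ha) _ (hprim b h1 hb) hab)

end Fermat.Agent.GT.EMB
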