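import Fermat.Agent.GT.EMB.General
import Fermat.Agent.S28.An.Subst
import Fermat.Agent.S28.An.LevelOne
import Fermat.Agent.GR.F.Formal

/-!
# GT-EMB, file 3a: the matrix `γ = [[1, 0], [q M0 c, 1]]` acting on `τ ↦ j(q² d τ)` (analytic input)
-/

set_option autoImplicit false

open UpperHalfPlane ModularCurve CongruenceSubgroup
open scoped MatrixGroups

namespace Fermat.Agent.GT.EMB

open Fermat.Agent.GR
open Fermat.Agent.S28 (IsExp)

/-- The matrix identity `diag(D,1) γ = δ [[a,b],[0,e]]` in terms of the action on `ℍ`. -/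
private theorem MidMap_mulPos_smul_eq (D : ℕ) [NeZero D] (γ δ : SL(2, ℤ)) (a e : ℕ) (b : ℤ)
    (he : 0 < e)
    (h00 : (D : ℤ) * γ 0 0 = δ 0 0 * a) (h01 : (D : ℤ) * γ 0 1 = δ 0 0 * b + δ 0 1 * e)
    (h10 : γ 1 0 = δ 1 0 * a) (h11 : γ 1 1 = δ 1 0 * b + δ 1 1 * e)
    (τ τ' : ℍ) (hτ : (τ' : ℂ) = ((a : ℂ) * τ + b) / e) : S24.mulPos D (γ • τ) = δ • τ' := by
  apply UpperHalfPlane.ext
  rw [S24.coe_mulPos, coe_specialLinearGroup_apply, coe_specialLinearGroup_apply, hτ]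
  have heC : (e : ℂ) ≠ 0 := by exact_mod_cast he.ne'
  simp only [algebraMap_int_eq, Int.coe_castRingHom, Complex.ofReal_intCast]
  have c00 : (D : ℂ) * ((γ 0 0 : ℤ) : ℂ) = ((δ 0 0 : ℤ) : ℂ) * a := by exact_mod_cast h00
  have c01 : (D : ℂ) * ((γ 0 1 : ℤ) : ℂ) = ((δ 0 0 : ℤ) : ℂ) * b + ((δ 0 1 : ℤ) : ℂ) * e := by
    exact_mod_cast h01
  have c10 : ((γ 1 0 : ℤ) : ℂ) = ((δ 1 0 : ℤ) : ℂ) * a := by exact_mod_cast h10
  have c11 : ((γ 1 1 : ℤ) : ℂ) = ((δ 1 0 : ℤ) : ℂ) * b + ((δ 1 1 : ℤ) : ℂ) * e := by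
    exact_mod_cast h11
  have hnum : ((δ 0 0 : ℤ) : ℂ) * (((a : ℂ) * τ + b) / e) + ((δ 0 1 : ℤ) : ℂ) =
      ((D : ℂ) * (((γ 0 0 : ℤ) : ℂ) * τ + ((γ 0 1 : ℤ) : ℂ))) / e := by
    field_simp
    linear_combination (-(τ : ℂ)) * c00 - c01
  have hden : ((δ 1 0 : ℤ) : ℂ) * (((a : ℂ) * τ + b) / e) + ((δ 1 1 : ℤ) : ℂ) =
      (((γ 1 0 : ℤ) : ℂ) * τ + ((γ 1 1 : ℤ) : ℂ)) / e := by
    field_simp
    linear_combination (-(τ : ℂ)) * c10 - c11
  rw [hnum, hden, div_div_div_cancel_right₀ heC, mul_div_assoc]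

private theorem MidMap_exists_SL (a b c d : ℤ) (h : a * d - b * c = 1) :
    ∃ γ : SL(2, ℤ), γ 0 0 = a ∧ γ 0 1 = b ∧ γ 1 0 = c ∧ γ 1 1 = d :=
  ⟨⟨!![a, b; c, d], by rw [Matrix.det_fin_two_of]; exact h⟩, rfl, rfl, rfl, rfl⟩

/-- ANALYTIC INPUT: `j(q² d γ τ) = j(d τ + B / q)` with `B ≡ b d (mod q)`,
`γ = [[1, 0], [q M0 c, 1]]`, `M0 b c ≡ 1 (mod q)`. -/
theorem exists_middle_map {q M0 : ℕ} (hq : q.Prime) (hM0 : M0 ≠ 0) (hqM : ¬ q ∣ M0) (b : ℤ)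
    (hb : ¬ (q : ℤ) ∣ b) :
    ∃ γ : SL(2, ℤ), γ ∈ Gamma0 (q * M0) ∧
      ∀ (d : ℕ) (_ : NeZero (q ^ 2 * d)), d ∣ M0 → ∃ B : ℤ, (q : ℤ) ∣ B - b * d ∧
        ∀ τ : ℍ, S24.jdfun (q ^ 2 * d) (γ • τ) = S24.jfun (S28.affH (q * d) B q τ) := by
  have hqZ : Prime (q : ℤ) := Nat.prime_iff_prime_int.mp hq
  have hnd : ¬ (q : ℤ) ∣ (M0 : ℤ) * b := by
    intro h
    rcases hqZ.dvd_or_dvd h with h | h
    · exact hqM (by exact_mod_cast h)
    · exact hb h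
  obtain ⟨k, c, hkc⟩ : IsCoprime (q : ℤ) ((M0 : ℤ) * b) :=
    (Prime.coprime_iff_not_dvd hqZ).mpr hnd
  obtain ⟨γ, g00, g01, g10, g11⟩ := MidMap_exists_SL 1 0 ((q : ℤ) * M0 * c) 1 (by ring)
  refine ⟨γ, ?_, ?_⟩
  · rw [Gamma0_mem, g10]
    have : (((q : ℤ) * M0 * c : ℤ) : ZMod (q * M0)) =
        ((q * M0 : ℕ) : ZMod (q * M0)) * (c : ZMod (q * M0)) := by
      push_cast
      ring
    rw [this, ZMod.natCast_self, zero_mul]
  · intro d _ hd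
    obtain ⟨e, rfl⟩ := hd
    refine ⟨b * d, by simp, fun τ => ?_⟩
    have hd0 : 0 < d := Nat.pos_of_ne_zero (fun h => hM0 (by rw [h, zero_mul]))
    push_cast at hkc g10
    obtain ⟨δ, d00, d01, d10, d11⟩ := MidMap_exists_SL (q : ℤ) (-(b * d)) ((e : ℤ) * c) k
      (by linear_combination hkc)
    rw [S24.jdfun, MidMap_mulPos_smul_eq (q ^ 2 * d) γ δ
      (q * d) q (b * d) hq.pos ?_ ?_ ?_ ?_ τ (S28.affH (q * d) (b * d) q τ)
      (by rw [S28.coe_affH _ (Nat.mul_pos hq.pos hd0) hq.pos τ]), S24.jfun_smul]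
    · rw [g00, d00]
      push_cast
      ring
    · rw [g01, d00, d01]
      ring
    · rw [g10, d10]
      push_cast
      ring
    · rw [g11, d10, d11]
      linear_combination -hkc

/-- the expansion of `τ ↦ j(d τ + B / q)`. -/
theorem isExp_jfun_affH {K : Type} [Field K] (ι : K →+* ℂ) {q : ℕ} (hq : 0 < q) (ζ : Kˣ) (b : ℤ)
    (hζ : ι ζ = Complex.exp (2 * Real.pi * Complex.I * b / q)) (d : ℕ) (hd : d ≠ 0) (B : ℤ)
    (hB : (q : ℤ) ∣ B - b * d) :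
    IsExp 1 (fun τ => S24.jfun (S28.affH (q * d) B q τ)) (coeffMap ι (scaleHom ζ (jd K d))) := by
  have : NeZero d := ⟨hd⟩
  have hqC : (q : ℂ) ≠ 0 := by exact_mod_cast hq.ne'
  have h1 := S28.isExp_jF.comp_affH (N := 1) (a := q * d) (δ := q) (m := d) B one_pos
    (Nat.mul_pos hq (Nat.pos_of_ne_zero hd)) hq (by ring)
  have hroot : ((S28.rootU B q : ℂˣ) : ℂ) = (ι ζ) ^ d := by
    obtain ⟨m, hm⟩ := hB
    have hB' : (B : ℂ) = b * d + q * m := by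
      have : B = b * d + q * m := by linarith
      exact_mod_cast congrArg (Int.cast : ℤ → ℂ) this
    rw [S28.rootU, Units.val_mk0, hζ, ← Complex.exp_nat_mul, hB']
    have e1 : 2 * (Real.pi : ℂ) * Complex.I * ((b : ℂ) * d + q * m) / q =
        (d : ℂ) * (2 * Real.pi * Complex.I * b / q) + m * (2 * Real.pi * Complex.I) := by
      field_simp
    rw [e1, Complex.exp_add, Complex.exp_int_mul_two_pi_mul_I, mul_one]
  have heq : S28.substL (S28.rootU B q) d (jqModC ℂ) = coeffMap ι (scaleHom ζ (jd K d)) := by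
    ext n
    rw [coeffMap_coeff, scaleHom_coeff, jd_eq, map_mul]
    by_cases hn : (d : ℤ) ∣ n
    · obtain ⟨k, rfl⟩ := hn
      rw [S28.substL_coeff_mul, qExpand_coeff_mul, ← coeffMap_coeff, coeffMap_jqModC]
      congr 1
      rw [Units.val_zpow_eq_zpow_val, Units.val_zpow_eq_zpow_val, map_zpow₀, hroot, zpow_mul,
        zpow_natCast]
    · rw [S28.substL_coeff_of_not_dvd _ _ _ hn, qExpand_coeff_of_not_dvd _ _ hn, map_zero, mul_zero]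
  rw [← heq]
  exact h1

/-- a primitive `q`-th root of unity in `ℂ` is `exp(2πi b/q)` with `q ∤ b`. -/
theorem exists_exp_of_isPrimitiveRoot {K : Type} [Field K] (ι : K →+* ℂ) {q : ℕ} (hq : q.Prime)
    (ζ : Kˣ) (hζ : IsPrimitiveRoot ζ q) :
    ∃ b : ℤ, ¬ (q : ℤ) ∣ b ∧ ι ζ = Complex.exp (2 * Real.pi * Complex.I * b / q) := by
  have h1 : IsPrimitiveRoot (ζ : K) q := IsPrimitiveRoot.coe_units_iff.mpr hζ
  have h2 : IsPrimitiveRoot (ι ζ) q := h1.map_of_injective ι.injective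
  obtain ⟨i, -, hi, hexp⟩ := (Complex.isPrimitiveRoot_iff _ q hq.ne_zero).mp h2
  refine ⟨i, ?_, ?_⟩
  · intro h
    have h' : q ∣ i := by exact_mod_cast h
    have := Nat.Coprime.eq_one_of_dvd hi.symm h'
    exact hq.one_lt.ne' this
  · rw [← hexp]
    congr 1
    push_cast
    ring

end Fermat.Agent.GT.EMB
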