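import Fermat.Agent.GT.EMB.AtkinLehner
import Fermat.Agent.GT.EMB.MidMap

/-!
# GT-EMB, file 3b: the expansions at the middle cusps of `X₀(q² M0)`

`iotaMid K q M0 ζ : FF K (q² M0) → K((t))` is the identity on `FF K (q M0)` and sends
`j(t^{q² d})` to `j((ζ t)^d)` (`d ∣ M0`, `ζ` a primitive `q`-th root of unity).
Analytically it is `f ↦ f ∘ γ`, `γ = [[1, 0], [q M0 c, 1]]`.
-/

set_option autoImplicit false

open UpperHalfPlane ModularCurve CongruenceSubgroup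
open scoped MatrixGroups

namespace Fermat.Agent.GT.EMB

open Fermat.Agent.GR
open Fermat.Agent.S28 (IsExp)

/-- the images of the generators. -/
noncomputable def midImg {K : Type*} [Field K] (ζ : Kˣ) (q d : ℕ) : LaurentSeries K :=
  if q ^ 2 ∣ d then scaleHom ζ (jd K (d / q ^ 2)) else jd K d

/-! ### arithmetic helpers -/

theorem Middle_dvd_of_not_sq_dvd {q M0 d : ℕ} (hq : q.Prime) (hd : d ∣ q ^ 2 * M0)
    (h : ¬ q ^ 2 ∣ d) : d ∣ q * M0 := by
  obtain ⟨a, c, ha, hc, rfl⟩ := (Nat.dvd_mul).mp hd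
  obtain ⟨i, hi, rfl⟩ := (Nat.dvd_prime_pow hq).mp ha
  have hi1 : i ≤ 1 := by
    by_contra hcon
    have : i = 2 := by omega
    subst this
    exact h (dvd_mul_right _ _)
  exact Nat.mul_dvd_mul ((pow_dvd_pow q hi1).trans (by rw [pow_one])) hc

theorem Middle_not_sq_dvd {q M0 d : ℕ} (hq : q.Prime) (hqM : ¬ q ∣ M0) (hd : d ∣ q * M0) :
    ¬ q ^ 2 ∣ d := by
  intro h
  have h1 : q * q ∣ q * M0 := by
    rw [← sq]
    exact h.trans hd
  exact hqM (Nat.dvd_of_mul_dvd_mul_left hq.pos h1)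

theorem Middle_midImg_sq {K : Type*} [Field K] (ζ : Kˣ) {q : ℕ} (hq : 0 < q) (d : ℕ) :
    midImg ζ q (q ^ 2 * d) = scaleHom ζ (jd K d) := by
  rw [midImg, if_pos (dvd_mul_right _ _), Nat.mul_div_cancel_left _ (pow_pos hq 2)]

theorem Middle_midImg_of_not_dvd {K : Type*} [Field K] (ζ : Kˣ) {q d : ℕ} (h : ¬ q ^ 2 ∣ d) :
    midImg ζ q d = jd K d := by
  rw [midImg, if_neg h]

theorem Middle_coeffMap_midImg {K K' : Type*} [Field K] [Field K'] (σ : K →+* K') (ζ : Kˣ)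
    (q d : ℕ) : coeffMap σ (midImg ζ q d) = midImg (Units.map (σ : K →* K') ζ) q d := by
  unfold midImg
  split_ifs
  · rw [coeffMap_scaleHom, coeffMap_jd]
  · rw [coeffMap_jd]

/-- the coefficient of `t⁻¹` in `j`. -/
theorem Middle_coeff_jd_one (K : Type*) [Field K] : (jd K 1).coeff (-1) = 1 := by
  rw [jd_eq]
  have h := qExpand_coeff_mul (R := K) 1 (jqModC K) (-1)
  rw [Nat.cast_one, one_mul] at h
  rw [h, coeff_jqModC_neg_one]

theorem Middle_coeff_scaleHom_jd_one {K : Type*} [Field K] (ζ : Kˣ) :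
    (scaleHom ζ (jd K 1)).coeff (-1) = ((ζ⁻¹ : Kˣ) : K) := by
  rw [scaleHom_coeff, Middle_coeff_jd_one, mul_one, zpow_neg_one]

/-- `j(t^{q c})` is invariant under `t ↦ ζ t`, `ζ ^ q = 1`. -/
theorem Middle_scaleHom_jd_mul {K : Type*} [Field K] (ζ : Kˣ) {q : ℕ} (hζ : ζ ^ q = 1) (c : ℕ) :
    scaleHom ζ (jd K (q * c)) = jd K (q * c) := by
  by_cases h0 : q * c = 0
  · rw [jd, dif_pos h0, map_zero]
  have : NeZero (q * c) := ⟨h0⟩
  ext n
  rw [scaleHom_coeff, jd_eq]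
  by_cases hn : ((q * c : ℕ) : ℤ) ∣ n
  · obtain ⟨m, rfl⟩ := hn
    have : ζ ^ (((q * c : ℕ) : ℤ) * m) = 1 := by
      rw [Nat.cast_mul, mul_assoc, zpow_mul, zpow_natCast, hζ, one_zpow]
    rw [this, Units.val_one, one_mul]
  · rw [qExpand_coeff_of_not_dvd _ _ hn, mul_zero]

theorem Middle_algebraMap_eq_C {K : Type*} [Field K] (c : K) :
    algebraMap K (LaurentSeries K) c = HahnSeries.C c := by
  rw [algebraMap_laurentSeries_eq_single]
  rfl

theorem Middle_coeffMap_algebraMap {K K' : Type*} [Field K] [Field K'] (σ : K →+* K') (c : K) :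
    coeffMap σ (algebraMap K (LaurentSeries K) c) = algebraMap K' (LaurentSeries K') (σ c) := by
  rw [Middle_algebraMap_eq_C, Middle_algebraMap_eq_C]
  ext n
  simp only [coeffMap_coeff, HahnSeries.C_apply, HahnSeries.coeff_single]
  split_ifs <;> simp

theorem exists_iotaMid {K : Type} [Field K] (ι : K →+* ℂ) {q M0 : ℕ} [NeZero (q ^ 2 * M0)]
    (hq : q.Prime) (hqM : ¬ q ∣ M0) (ζ : Kˣ) (hζ : IsPrimitiveRoot ζ q) :
    ∃ φ : FF K (q ^ 2 * M0) →ₐ[K] LaurentSeries K,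
      ∀ d hd, φ (gen K (q ^ 2 * M0) d hd) = midImg ζ q d := by
  have hM0 : M0 ≠ 0 := fun h => NeZero.ne (q ^ 2 * M0) (by rw [h, mul_zero])
  obtain ⟨b, hb, hζb⟩ := exists_exp_of_isPrimitiveRoot ι hq ζ hζ
  obtain ⟨γ, hγ, hmid⟩ := exists_middle_map hq hM0 hqM b hb
  refine exists_emb ι (q ^ 2 * M0) (fun τ => γ • τ) (MulAction.surjective γ) (midImg ζ q) ?_
  intro d hd0 hd
  by_cases hsq : q ^ 2 ∣ d
  · obtain ⟨d0, rfl⟩ := hsq
    have hd0M : d0 ∣ M0 := Nat.dvd_of_mul_dvd_mul_left (pow_pos hq.pos 2) hd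
    have hd0ne : d0 ≠ 0 := fun h => hd0.out (by rw [h, mul_zero])
    obtain ⟨B, hB, hfun⟩ := hmid d0 hd0 hd0M
    rw [Middle_midImg_sq ζ hq.pos]
    have := isExp_jfun_affH ι hq.pos ζ b hζb d0 hd0ne B hB
    have e : (fun τ => S24.jdfun (q ^ 2 * d0) (γ • τ)) =
        fun τ => S24.jfun (S28.affH (q * d0) B q τ) := funext hfun
    rw [e]
    exact this
  · have hd' : d ∣ q * M0 := Middle_dvd_of_not_sq_dvd hq hd hsq
    rw [Middle_midImg_of_not_dvd ζ hsq, coeffMap_jd, jd_eq]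
    have e : (fun τ => S24.jdfun d (γ • τ)) = S24.jdfun d :=
      funext fun τ => S24.jdfun_smul_of_mem_Gamma0 (q * M0) d hd' γ hγ τ
    rw [e]
    exact B.isExp_jdfun d

/-- The expansion at a middle cusp (junk unless `ζ` is a primitive `q`-th root of unity, `q` is
prime, `q ∤ M0` and `K` embeds into `ℂ`). -/
noncomputable def iotaMid (K : Type) [Field K] (q M0 : ℕ) [NeZero (q ^ 2 * M0)] (ζ : Kˣ) :
    FF K (q ^ 2 * M0) →ₐ[K] LaurentSeries K :=
  haveI : Nonempty (FF K (q ^ 2 * M0) →ₐ[K] LaurentSeries K) := ⟨(FF K (q ^ 2 * M0)).val⟩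
  Classical.epsilon fun φ : FF K (q ^ 2 * M0) →ₐ[K] LaurentSeries K =>
    ∀ d hd, φ (gen K (q ^ 2 * M0) d hd) = midImg ζ q d

section

variable {K : Type} [Field K] (ι : K →+* ℂ) {q M0 : ℕ} [NeZero (q ^ 2 * M0)]
  (hq : q.Prime) (hqM : ¬ q ∣ M0) (ζ : Kˣ) (hζ : IsPrimitiveRoot ζ q)

include ι hq hqM hζ

theorem iotaMid_gen (d : ℕ) (hd : d ∣ q ^ 2 * M0) :
    iotaMid K q M0 ζ (gen K (q ^ 2 * M0) d hd) = midImg ζ q d := by
  unfold iotaMid
  exact Classical.epsilon_spec (exists_iotaMid ι hq hqM ζ hζ) d hd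

theorem iotaMid_gen_sq (d : ℕ) (hd : d ∣ M0) :
    iotaMid K q M0 ζ (gen K (q ^ 2 * M0) (q ^ 2 * d) (Nat.mul_dvd_mul_left _ hd)) =
      scaleHom ζ (jd K d) := by
  rw [iotaMid_gen ι hq hqM ζ hζ, Middle_midImg_sq ζ hq.pos]

/-- `iotaMid` is the identity on the function field of level `q M0`. -/
theorem iotaMid_of_mem (u : FF K (q ^ 2 * M0)) (hu : (u : LaurentSeries K) ∈ FF K (q * M0)) :
    iotaMid K q M0 ζ u = u := by
  have hne : NeZero (q * M0) := ⟨by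
    have h := NeZero.ne (q ^ 2 * M0)
    intro h0
    apply h
    rw [sq, mul_assoc, h0, mul_zero]⟩
  have hle : FF K (q * M0) ≤ FF K (q ^ 2 * M0) :=
    full_degeneracyC_le K (by rw [sq, mul_assoc]; exact dvd_mul_left _ _)
  have key : (iotaMid K q M0 ζ).comp (IntermediateField.inclusion hle) = (FF K (q * M0)).val := by
    refine algHom_ext_gen (q * M0) _ _ fun d hd => ?_
    have hd' : d ∣ q ^ 2 * M0 := hd.trans (by rw [sq, mul_assoc]; exact dvd_mul_left _ _)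
    have e : IntermediateField.inclusion hle (gen K (q * M0) d hd) = gen K (q ^ 2 * M0) d hd' :=
      Subtype.ext rfl
    rw [AlgHom.comp_apply, e, iotaMid_gen ι hq hqM ζ hζ,
      Middle_midImg_of_not_dvd ζ (Middle_not_sq_dvd hq hqM hd)]
    rfl
  have h1 := AlgHom.congr_fun key ⟨u, hu⟩
  have e : IntermediateField.inclusion hle ⟨(u : LaurentSeries K), hu⟩ = u := Subtype.ext rfl
  rw [AlgHom.comp_apply, e] at h1
  exact h1

/-- `iotaMid` is not the inclusion. -/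
theorem iotaMid_ne_val : iotaMid K q M0 ζ ≠ (FF K (q ^ 2 * M0)).val := by
  intro h
  have h1 := iotaMid_gen_sq ι hq hqM ζ hζ 1 (one_dvd _)
  rw [h] at h1
  have h2 := congrArg (fun f : LaurentSeries K => f.coeff (-1)) h1
  simp only [IntermediateField.coe_val, coe_gen] at h2
  rw [Middle_coeff_scaleHom_jd_one] at h2
  have : NeZero (q ^ 2 * 1) := ⟨by have := hq.pos; positivity⟩
  rw [jd_eq, qExpand_coeff_of_not_dvd] at h2
  · exact (ζ⁻¹).ne_zero h2.symm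
  · intro hdvd
    have h3 : ((q ^ 2 * 1 : ℕ) : ℤ) ∣ 1 := (Int.dvd_neg).mp hdvd
    have h4 : q ^ 2 * 1 ∣ 1 := by exact_mod_cast h3
    have h5 : q ∣ 1 := (Dvd.intro_left q (by ring : q * q = q ^ 2 * 1)).trans h4
    exact hq.one_lt.ne' (Nat.dvd_one.mp h5)

theorem iotaMid_injective_root (ζ' : Kˣ) (hζ' : IsPrimitiveRoot ζ' q)
    (h : iotaMid K q M0 ζ = iotaMid K q M0 ζ') : ζ = ζ' := by
  have h1 := iotaMid_gen_sq ι hq hqM ζ hζ 1 (one_dvd _)
  have h1' := iotaMid_gen_sq ι hq hqM ζ' hζ' 1 (one_dvd _)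
  rw [h, h1'] at h1
  have h2 := congrArg (fun f : LaurentSeries K => f.coeff (-1)) h1
  simp only [Middle_coeff_scaleHom_jd_one] at h2
  exact (inv_injective (Units.ext h2)).symm

/-- the middle cusps are permuted by `w_{q²}`. -/
theorem iotaMid_wQ (u : FF K (q ^ 2 * M0)) :
    iotaMid K q M0 ζ (wQ K (q ^ 2) M0 u) = scaleHom ζ (iotaMid K q M0 ζ⁻¹ u) := by
  have hcop : (q ^ 2).Coprime M0 :=
    Nat.Coprime.pow_left 2 ((Nat.Prime.coprime_iff_not_dvd hq).mpr hqM)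
  have hζi : IsPrimitiveRoot ζ⁻¹ q := hζ.inv
  have key : ((iotaMid K q M0 ζ).toRingHom.comp (wQ K (q ^ 2) M0).toAlgHom.toRingHom) =
      (scaleHom ζ).comp (iotaMid K q M0 ζ⁻¹).toRingHom := by
    refine ringHom_ext_gen (q ^ 2 * M0) _ _ (fun c => ?_) fun d hd => ?_
    · simp only [RingHom.comp_apply, AlgHom.toRingHom_eq_coe, RingHom.coe_coe, AlgHom.commutes]
      rw [Middle_algebraMap_eq_C, scaleHom_C]
    · show iotaMid K q M0 ζ (wQ K (q ^ 2) M0 (gen K (q ^ 2 * M0) d hd)) =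
        scaleHom ζ (iotaMid K q M0 ζ⁻¹ (gen K (q ^ 2 * M0) d hd))
      have hw : wQ K (q ^ 2) M0 (gen K (q ^ 2 * M0) d hd) =
          gen K (q ^ 2 * M0) (alIdx (q ^ 2) d) (alIdx_dvd hcop hd) :=
        Subtype.ext (wQ_gen ι (q ^ 2) M0 hcop d hd)
      rw [hw, iotaMid_gen ι hq hqM ζ hζ, iotaMid_gen ι hq hqM ζ⁻¹ hζi]
      obtain ⟨a, c, ha, hc, rfl⟩ := (Nat.dvd_mul).mp hd
      rw [alIdx_mul hcop ha hc]
      have hqc : ¬ q ∣ c := fun h => hqM (h.trans hc)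
      have hc2 : ¬ q ^ 2 ∣ c := fun h => hqc ((dvd_pow_self q two_ne_zero).trans h)
      have hqc2 : ¬ q ^ 2 ∣ q * c := by
        intro h
        rw [sq] at h
        exact hqc (Nat.dvd_of_mul_dvd_mul_left hq.pos h)
      obtain ⟨i, hi, rfl⟩ := (Nat.dvd_prime_pow hq).mp ha
      interval_cases i
      · rw [pow_zero, Nat.div_one, one_mul, Middle_midImg_sq ζ hq.pos,
          Middle_midImg_of_not_dvd _ hc2]
      · have e : q ^ 2 / q ^ 1 = q := by
          rw [pow_one, sq, Nat.mul_div_cancel _ hq.pos]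
        rw [e, pow_one, Middle_midImg_of_not_dvd _ hqc2, Middle_midImg_of_not_dvd _ hqc2,
          Middle_scaleHom_jd_mul ζ hζ.pow_eq_one]
      · rw [Nat.div_self (pow_pos hq.pos 2), one_mul, Middle_midImg_of_not_dvd _ hc2,
          Middle_midImg_sq _ hq.pos, scaleHom_scaleHom, mul_inv_cancel, scaleHom_one]
  exact RingHom.congr_fun key u

end

/-- `iotaMid` is compatible with field homomorphisms on the coefficients. -/
theorem coeffMap_iotaMid {K K' : Type} [Field K] [Field K'] (ι' : K' →+* ℂ) (σ : K →+* K')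
    {q M0 : ℕ} [NeZero (q ^ 2 * M0)] (hq : q.Prime) (hqM : ¬ q ∣ M0) (ζ : Kˣ)
    (hζ : IsPrimitiveRoot ζ q) (u : FF K (q ^ 2 * M0)) :
    coeffMap σ (iotaMid K q M0 ζ u) =
      iotaMid K' q M0 (Units.map (σ : K →* K') ζ) (E.mapFF σ (q ^ 2 * M0) u) := by
  have hζ' : IsPrimitiveRoot (Units.map (σ : K →* K') ζ) q :=
    hζ.map_of_injective (Units.map_injective σ.injective)
  have key : (coeffMap σ).comp (iotaMid K q M0 ζ).toRingHom =
      (iotaMid K' q M0 (Units.map (σ : K →* K') ζ)).toRingHom.comp (E.mapFF σ (q ^ 2 * M0)) := by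
    refine ringHom_ext_gen (q ^ 2 * M0) _ _ (fun c => ?_) fun d hd => ?_
    · have e : E.mapFF σ (q ^ 2 * M0) (algebraMap K (FF K (q ^ 2 * M0)) c) =
          algebraMap K' (FF K' (q ^ 2 * M0)) (σ c) := by
        apply Subtype.ext
        exact Middle_coeffMap_algebraMap σ c
      simp only [RingHom.comp_apply, AlgHom.toRingHom_eq_coe, RingHom.coe_coe, AlgHom.commutes, e]
      exact Middle_coeffMap_algebraMap σ c
    · have e : E.mapFF σ (q ^ 2 * M0) (gen K (q ^ 2 * M0) d hd) = gen K' (q ^ 2 * M0) d hd :=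
        Subtype.ext (coeffMap_jd σ d)
      show coeffMap σ (iotaMid K q M0 ζ (gen K (q ^ 2 * M0) d hd)) =
        iotaMid K' q M0 (Units.map (σ : K →* K') ζ) (E.mapFF σ (q ^ 2 * M0) (gen K (q ^ 2 * M0) d hd))
      rw [e, iotaMid_gen (ι'.comp σ) hq hqM ζ hζ, iotaMid_gen ι' hq hqM _ hζ',
        Middle_coeffMap_midImg]
  exact RingHom.congr_fun key u

end Fermat.Agent.GT.EMB
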